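import Fermat.Agent.A3.GR.Leaves

/-!
# A3 / GOODRED-INST — the assembly `goodRed_of_leaves`   (lead: helper19)

`GoodRed ℚ̄ F_M k F_{M,k}` from the leaves of `Leaves.lean`.  Fully proved.
-/

set_option autoImplicit false
set_option synthInstance.maxHeartbeats 400000
set_option linter.unusedSectionVars false
set_option linter.style.haveILetI false

noncomputable section

namespace Fermat.Agent.A3.GR

open AlgebraicCurve ModularCurve HahnSeries IsLocalRing
open Fermat.Agent.S37.Rim Fermat.Agent.S37.H940 Fermat.Agent.A3.H799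

variable {A : ValuationSubring Qb} {M : ℕ}

/-- the canonical fraction data of integral `q`-series -/
abbrev qd (A : ValuationSubring Qb) (M : ℕ) : FracData Qb (FM M) (kA A) (FkM A M) :=
  qData A (residue A) (FM M) (FkM A M) residue_surjective (residue_eq_zero_iff_not_isUnit A)

theorem ctx_eq (A : ValuationSubring Qb) (M : ℕ) : ctx A M = (qd A M).ctx := rfl

/-- Gauss form: every nonzero function is a constant times a unit of `V` with nonzero
reduction. -/
theorem exists_const_mul_unit (hG : GaussStatement A M) (f : FM M) (hf : f ≠ 0) :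
    ∃ c : Qb, c ≠ 0 ∧ ∃ u : (ctx A M).V, (ctx A M).ρ u ≠ 0 ∧
      f = algebraMap Qb (FM M) c * (u : FM M) := by
  obtain ⟨c, hc, y₁, y₂, h1, h2, hfy⟩ := hG f hf
  have hy2 : ((y₂ : (qd A M).O) : FM M) ≠ 0 := (qd A M).coe_ne_zero h2
  have hu : (qd A M).IsFrac ((y₁ : FM M) / (y₂ : FM M)) :=
    ⟨y₁, y₂, h2, div_mul_cancel₀ _ hy2⟩
  refine ⟨c, hc, ⟨(y₁ : FM M) / (y₂ : FM M), hu⟩, ?_, ?_⟩
  · show (qd A M).ρ ⟨_, hu⟩ ≠ 0
    rw [(qd A M).ρ_apply ⟨_, hu⟩ (a := y₁) (b := y₂) h2 (div_mul_cancel₀ _ hy2)]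
    exact div_ne_zero h1 h2
  · show f = algebraMap Qb (FM M) c * ((y₁ : FM M) / (y₂ : FM M))
    rw [mul_div_assoc', ← hfy, mul_div_assoc, div_self hy2, mul_one]

theorem mem_V_of_mem_A (a : Qb) (ha : a ∈ A) : algebraMap Qb (FM M) a ∈ (ctx A M).V :=
  (ctx A M).A_mem ⟨a, ha⟩

/-- the Gauss valuation ring of `F_M` (leaf GAUSS) -/
def gaussRing (hG : GaussStatement A M) : ValuationSubring (FM M) :=
  { (ctx A M).V with
    mem_or_inv_mem' := by
      intro f
      by_cases hf : f = 0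
      · left
        rw [hf]
        exact (ctx A M).V.zero_mem
      obtain ⟨c, hc, u, hu, hfu⟩ := exists_const_mul_unit hG f hf
      rcases A.mem_or_inv_mem c with h | h
      · left
        show f ∈ (ctx A M).V
        rw [hfu]
        exact (ctx A M).V.mul_mem (mem_V_of_mem_A c h) u.2
      · right
        show f⁻¹ ∈ (ctx A M).V
        rw [hfu, mul_inv, ← map_inv₀]
        exact (ctx A M).V.mul_mem (mem_V_of_mem_A c⁻¹ h) ((ctx A M).inv_mem u hu) }

theorem mem_gaussRing (hG : GaussStatement A M) (f : FM M) :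
    f ∈ gaussRing hG ↔ f ∈ (ctx A M).V := Iff.rfl

/-- the identification `O = V` -/
def toV (hG : GaussStatement A M) : gaussRing hG →+* (ctx A M).V where
  toFun f := ⟨f.1, f.2⟩
  map_one' := rfl
  map_mul' _ _ := rfl
  map_zero' := rfl
  map_add' _ _ := rfl

/-- reduction of functions on `O` -/
def redO (hG : GaussStatement A M) : gaussRing hG →+* FkM A M :=
  (ctx A M).ρ.comp (toV hG)

theorem redO_mk (hG : GaussStatement A M) (f : FM M) (hf : f ∈ gaussRing hG) :
    redO hG ⟨f, hf⟩ = (ctx A M).ρ ⟨f, hf⟩ := rfl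

theorem not_mem_V_of_inv_mem_nonunits (a : Qb) (ha : a ∉ A) :
    algebraMap Qb (FM M) a ∉ (ctx A M).V := by
  intro hmem
  have ha0 : a ≠ 0 := fun h => ha (h ▸ A.zero_mem)
  have hinv : a⁻¹ ∈ A := (A.mem_or_inv_mem a).resolve_left ha
  have hnu : ¬ IsUnit (⟨a⁻¹, hinv⟩ : A) := by
    intro hu
    obtain ⟨b, hb⟩ := hu.exists_right_inv
    have h1 : a⁻¹ * (b : Qb) = 1 := congrArg Subtype.val hb
    have h2 : (b : Qb) = a := by
      field_simp at h1
      exact h1
    exact ha (h2 ▸ b.2)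
  have h0 : (ctx A M).π ⟨a⁻¹, hinv⟩ = 0 := ((ctx A M).π_eq_zero _).mpr hnu
  have h3 : (ctx A M).ρ ⟨algebraMap Qb (FM M) a, hmem⟩ *
      (ctx A M).ρ ((ctx A M).const ⟨a⁻¹, hinv⟩) = 1 := by
    rw [← map_mul]
    have : (⟨algebraMap Qb (FM M) a, hmem⟩ : (ctx A M).V) * (ctx A M).const ⟨a⁻¹, hinv⟩ = 1 := by
      apply Subtype.ext
      show algebraMap Qb (FM M) a * algebraMap Qb (FM M) a⁻¹ = 1
      rw [← map_mul, mul_inv_cancel₀ ha0, map_one]
    rw [this, map_one]
  rw [(ctx A M).ρ_const, h0, map_zero, mul_zero] at h3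
  exact zero_ne_one h3

/-- **GOODRED-INST assembly**: the good reduction datum of `X₀(M)` at `A` from the leaves. -/
def goodRed_of_leaves [NeZero M] (ℓ : ℕ) (hℓ : ℓ.Prime) (hℓM : ¬ ℓ ∣ M)
    (hA : A.LiesOverPrime ℓ)
    (hG : GaussStatement A M) (hS : RedSurjStatement A M) (hR : RimStatement A M)
    (hgen : GenusStatement A M) (hO : OrthoStatement A M) (hIB : IBaseStatement A)
    (hIR : IRedStatement A M) (hIL : ILiftStatement A) (hIF : IFixedStatement A M) :
    GoodRed Qb (FM M) (kA A) (FkM A M) where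
  V := A
  O := gaussRing hG
  res := residue A
  red := redO hG
  r := hR.choose
  I := inertia A M
  res_surjective := residue_surjective
  res_eq_zero a := by
    rw [residue_eq_zero_iff_not_isUnit, ValuationSubring.coe_mem_nonunits_iff,
      IsLocalRing.mem_maximalIdeal, mem_nonunits_iff]
  algebraMap_mem a := by
    constructor
    · intro h
      by_contra ha
      exact not_mem_V_of_inv_mem_nonunits a ha h
    · intro h
      exact mem_V_of_mem_A a h
  red_algebraMap a h := (ctx A M).ρ_A a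
  red_surjective := by
    intro y
    obtain ⟨f, hf⟩ := hS y
    exact ⟨⟨f.1, f.2⟩, hf⟩
  gauss f hf := by
    obtain ⟨c, hc, u, hu, hfu⟩ := exists_const_mul_unit hG f hf
    refine ⟨c⁻¹, inv_ne_zero hc, ?_⟩
    have h1 : algebraMap Qb (FM M) c⁻¹ * f = (u : FM M) := by
      rw [hfu, ← mul_assoc, ← map_mul, inv_mul_cancel₀ hc, map_one, one_mul]
    refine ⟨by rw [h1]; exact u.2, ?_⟩
    have h2 : (⟨algebraMap Qb (FM M) c⁻¹ * f, by rw [h1]; exact u.2⟩ : gaussRing hG) =
        ⟨(u : FM M), u.2⟩ := Subtype.ext h1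
    rw [h2]
    exact hu
  div_red f hf D hD Q := hR.choose_spec.2.1 ⟨f.1, f.2⟩ hf D hD Q
  ff1 := Fermat.Agent.Lib.RR.H864.ff1_modularFunctionFieldBar M
  ff1k := Fermat.Agent.S18.H383.ff1_residue M ℓ hℓ hℓM A hA
  genus_eq := hgen
  orthonormal D := by
    obtain ⟨n, b, h1, h2, h3, h4⟩ := hO D
    exact ⟨n, fun i => ⟨(b i).1, (b i).2⟩, h1, h2, h3, h4⟩
  I_base g hg a := by
    obtain ⟨σ, hσ, rfl⟩ := hg
    exact hIB σ hσ a
  I_red g hg f := by
    obtain ⟨σ, hσ, rfl⟩ := hg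
    exact hIR σ hσ ⟨f.1, f.2⟩
  I_place g hg P := by
    obtain ⟨σ, hσ, rfl⟩ := hg
    exact hR.choose_spec.2.2 σ hσ P
  I_lift_const c := by
    obtain ⟨a, ha, hfix⟩ := hIL c
    refine ⟨a, ha, ?_⟩
    rintro g ⟨σ, hσ, rfl⟩
    exact hfix σ hσ
  I_fixed_place := by
    obtain ⟨P, hP⟩ := hIF
    refine ⟨P, ?_⟩
    rintro g ⟨σ, hσ, rfl⟩
    exact hP σ hσ

end Fermat.Agent.A3.GR

end
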