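import Fermat.Agent.A3.GR.Leaves
import Fermat.Agent.S37.H568.ValueGroup
import Fermat.Agent.S37.H98.Gen
import Fermat.Agent.S37.Red.ModG
import Fermat.Agent.S17.H680.Cusp
import Fermat.Agent.S37.H817.GalInertia

/-!
# A3 / GOODRED-INST — leaves GAUSS, RSURJ, IFIXED (helper19), by citation of landed results

* `gaussStatement`   : `GaussStatement A M`    (S37.H568 `valueGroupHyp_modular`)
* `redSurjStatement` : `RedSurjStatement A M`  (S37.Red `modρ_surjective`)
* `iFixedStatement`  : `IFixedStatement A M`   (S17.H680 `JZero.galois_smul_cusp`)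
* `iBaseStatement`   : `IBaseStatement A`      (S37.H817 `residue_of_mem_inertiaSubgroupIn`)
* `iRedStatement`    : `IRedStatement A M`     (coefficientwise action on integral `q`-series)
-/

set_option autoImplicit false
set_option synthInstance.maxHeartbeats 400000

noncomputable section

namespace Fermat.Agent.A3.GR

open AlgebraicCurve ModularCurve HahnSeries IsLocalRing
open Fermat.Agent.S37.Rim Fermat.Agent.S37.H940

/-- **LEAF GAUSS.** -/
theorem gaussStatement (M : ℕ) [NeZero M] (ℓ : ℕ) (hℓ : ℓ.Prime) (hℓM : ¬ ℓ ∣ M)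
    (A : ValuationSubring Qb) (hA : A.LiesOverPrime ℓ) : GaussStatement A M :=
  Fermat.Agent.S37.H568.valueGroupHyp_modular
    (Fermat.Agent.S37.H98.coreData_residueField M ℓ hℓ hℓM A hA)

/-- **LEAF RSURJ.** -/
theorem redSurjStatement (M : ℕ) [NeZero M] (ℓ : ℕ) (hℓ : ℓ.Prime) (hℓM : ¬ ℓ ∣ M)
    (A : ValuationSubring Qb) (hA : A.LiesOverPrime ℓ) : RedSurjStatement A M := by
  intro y
  obtain ⟨u, hu⟩ := Fermat.Agent.S37.Red.modρ_surjective
    (N := M) (A := A) (gaussStatement M ℓ hℓ hℓM A hA) y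
  exact ⟨⟨u.1, u.2⟩, hu⟩

/-- **LEAF IFIXED.** -/
theorem iFixedStatement (M : ℕ) [NeZero M] (A : ValuationSubring Qb) : IFixedStatement A M :=
  ⟨Fermat.Agent.S17.H680.JZero.cusp M, fun σ _ =>
    Fermat.Agent.S17.H680.JZero.galois_smul_cusp M σ⟩

/-- **LEAF IBASE.** -/
theorem iBaseStatement (A : ValuationSubring Qb) : IBaseStatement A :=
  fun _ hσ a => ⟨Fermat.Agent.S37.H817.mem_of_mem_inertiaSubgroupIn ℚ hσ a,
    Fermat.Agent.S37.H817.residue_of_mem_inertiaSubgroupIn ℚ hσ a⟩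

/-- the canonical fraction data of integral `q`-series -/
abbrev qd' (A : ValuationSubring Qb) (M : ℕ) : FracData Qb (FM M) (kA A) (FkM A M) :=
  qData A (residue A) (FM M) (FkM A M) residue_surjective (residue_eq_zero_iff_not_isUnit A)

section IRed

open Fermat.Agent.S37.H817

variable (A : ValuationSubring Qb) (M : ℕ)

/-- inertia preserves integral `q`-series and their reductions -/
theorem intQ_smul {σ : Qb ≃ₐ[ℚ] Qb} (hσ : σ ∈ A.inertiaSubgroupIn ℚ)
    (a : intQ A (residue A) (FM M) (FkM A M)) :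
    ∃ h : arithmeticGalois (modularFunctionFieldFull M) σ • (a : FM M) ∈
        intQ A (residue A) (FM M) (FkM A M),
      redQ A (residue A) (FM M) (FkM A M)
        ⟨arithmeticGalois (modularFunctionFieldFull M) σ • (a : FM M), h⟩ =
      redQ A (residue A) (FM M) (FkM A M) a := by
  obtain ⟨y, hy, hyk⟩ := a.2
  have h1 : coeffMap A.subtype (coeffMap (inertiaRes ℚ hσ) y) =
      ((arithmeticGalois (modularFunctionFieldFull M) σ • (a : FM M) : FM M) :
        LaurentSeries Qb) := by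
    rw [coeffMap_coeffMap, subtype_comp_inertiaRes, ← coeffMap_coeffMap, hy]
    rfl
  have h2 : coeffMap (residue A) (coeffMap (inertiaRes ℚ hσ) y) = coeffMap (residue A) y := by
    rw [coeffMap_coeffMap, residue_comp_inertiaRes]
  have hmem : arithmeticGalois (modularFunctionFieldFull M) σ • (a : FM M) ∈
      intQ A (residue A) (FM M) (FkM A M) :=
    ⟨coeffMap (inertiaRes ℚ hσ) y, h1, by rw [h2]; exact hyk⟩
  refine ⟨hmem, ?_⟩
  apply Subtype.ext
  rw [coe_redQ A (residue A) (FM M) (FkM A M) ⟨_, hmem⟩ h1,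
    coe_redQ A (residue A) (FM M) (FkM A M) a hy, h2]

/-- a multiplicative self-map preserving the integral functions and their reductions preserves
the fractions and their reductions -/
theorem frac_map {K F k Fk : Type*} [Field K] [Field F] [Algebra K F] [Field k] [Field Fk]
    [Algebra k Fk] (𝔇 : FracData K F k Fk) (g : F →* F)
    (hg : ∀ a : 𝔇.O, ∃ h : g (a : F) ∈ 𝔇.O, 𝔇.ρ₀ ⟨g (a : F), h⟩ = 𝔇.ρ₀ a) (f : 𝔇.V) :
    ∃ h : g (f : F) ∈ 𝔇.V, 𝔇.ρ ⟨g (f : F), h⟩ = 𝔇.ρ f := by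
  obtain ⟨a, b, hb, hab⟩ := f.2
  obtain ⟨ha', hra⟩ := hg a
  obtain ⟨hb', hrb⟩ := hg b
  have hb0 : 𝔇.ρ₀ ⟨g (b : F), hb'⟩ ≠ 0 := by
    rw [hrb]
    exact hb
  have hmul : g (f : F) * g (b : F) = g (a : F) := by
    rw [← map_mul, hab]
  have hfrac : 𝔇.IsFrac (g (f : F)) := ⟨⟨g (a : F), ha'⟩, ⟨g (b : F), hb'⟩, hb0, hmul⟩
  refine ⟨hfrac, ?_⟩
  rw [𝔇.ρ_apply ⟨g (f : F), hfrac⟩ (a := ⟨g (a : F), ha'⟩) (b := ⟨g (b : F), hb'⟩) hb0 hmul,
    𝔇.ρ_apply f (a := a) (b := b) hb hab, hra, hrb]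

/-- **LEAF IRED.** -/
theorem iRedStatement : IRedStatement A M := by
  intro σ hσ f
  exact frac_map (qd' A M)
    (MulSemiringAction.toRingHom (SemilinearAut Qb (FM M)) (FM M)
      (arithmeticGalois (modularFunctionFieldFull M) σ) : FM M →* FM M)
    (fun a => intQ_smul A M hσ a) f

end IRed


end Fermat.Agent.A3.GR

end
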